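import Fermat.Agent.Residue.Pairing
import Mathlib.LinearAlgebra.Projection

/-!
# Vanishing of the residue when `V ~ A ⊕ B` with `B` stable
-/

set_option autoImplicit false

open Module KaehlerDifferential

namespace Fermat.Agent.Residue

variable {K F V : Type*} [Field K] [Field F] [Algebra K F] [AddCommGroup V] [Module K V]

/-- There is a projection onto `B` sending `A` to `A ⊓ B`. -/
theorem exists_projection_pair (A B : Submodule K V) :
    ∃ π : V →ₗ[K] V, Proj B π ∧ (∀ a ∈ A, π a ∈ A ⊓ B) := by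
  obtain ⟨C, hC⟩ := exists_isCompl (A ⊓ B)
  set A' := A ⊓ C with hA'
  have h1 : A = (A ⊓ B) ⊔ A' := by
    have := sup_inf_assoc_of_le (x := A ⊓ B) C (z := A) inf_le_left
    rw [hC.sup_eq_top, top_inf_eq, inf_comm C A] at this
    exact this
  have h2 : Disjoint A' B := by
    rw [disjoint_iff, hA', inf_right_comm]
    exact hC.inf_eq_bot
  obtain ⟨D, hD⟩ := exists_isCompl (A' ⊔ B)
  have h3 : IsCompl B (A' ⊔ D) := by
    constructor
    · apply Disjoint.disjoint_sup_right_of_disjoint_sup_left h2.symm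
      rw [sup_comm]
      exact hD.disjoint
    · rw [codisjoint_iff, ← sup_assoc, sup_comm B A']
      exact hD.sup_eq_top
  refine ⟨B.projection _ h3, ⟨fun v => Submodule.projection_apply_mem h3 v,
    fun b hb => Submodule.projection_apply_of_mem_left h3 hb⟩, fun a ha => ?_⟩
  rw [h1] at ha
  obtain ⟨c, hc, a', ha', rfl⟩ := Submodule.mem_sup.mp ha
  rw [map_add, Submodule.projection_apply_of_mem_left h3 hc.2,
    Submodule.projection_apply_of_mem_right h3 (Submodule.mem_sup_left ha'), add_zero]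
  exact hc

theorem Res_eq_zero_of_stable {A B : Submodule K V} {m : F →ₐ[K] Module.End K V}
    (hA : ∀ f, EE A (m f)) (hB : ∀ f, ∀ b ∈ B, m f b ∈ B) (hfin : FiniteDimensional K ↥(A ⊓ B))
    {W : Submodule K V} (hW : FiniteDimensional K W) (hsup : ∀ v, v ∈ A ⊔ B ⊔ W) (f g : F) :
    Res hA (f • D K F g) = 0 := by
  obtain ⟨π, hπ, hπA⟩ := exists_projection_pair A B
  set q : V →ₗ[K] V := LinearMap.id - π with hq
  have hqx : ∀ x, q x = x - π x := fun _ => rfl
  have hqA : ∀ a ∈ A, q a ∈ A := fun a ha => sub_mem ha (hπA a ha).1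
  have hqB : ∀ b ∈ B, q b = 0 := fun b hb => by rw [hqx, hπ.eq b hb, sub_self]
  have h1 : E1 A (q ∘ₗ m f) := by
    refine E1.comp_right (θ := q) ?_ (m f)
    refine ⟨W.map q, inferInstance, fun v => ?_⟩
    obtain ⟨x, hx, w, hw, rfl⟩ := Submodule.mem_sup.mp (hsup v)
    obtain ⟨a, ha, b, hb, rfl⟩ := Submodule.mem_sup.mp hx
    rw [map_add, map_add, hqB b hb, add_zero]
    exact Submodule.add_mem_sup (hqA a ha) ⟨w, hw, rfl⟩
  have h2 : E2 A (m f - q ∘ₗ m f) := by
    have he : m f - q ∘ₗ m f = π ∘ₗ m f := by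
      ext x
      change m f x - (m f x - π (m f x)) = π (m f x)
      abel
    rw [he]
    obtain ⟨W', hW', hf⟩ := hA f
    refine Submodule.finiteDimensional_of_le (S₂ := (A ⊓ B) ⊔ W'.map π) ?_
    rintro _ ⟨a, ha, rfl⟩
    obtain ⟨b, hb, w, hw, hbw⟩ := Submodule.mem_sup.mp (hf a ha)
    change π (m f a) ∈ _
    rw [← hbw, map_add]
    exact Submodule.add_mem_sup (hπA b hb) ⟨w, hw, rfl⟩
  rw [Res_eq' hA h1 h2]
  have hval : ∀ x, comm (q ∘ₗ m f) (m g) x = m g (π (m f x)) - π (m f (m g x)) := by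
    intro x
    change (m f (m g x) - π (m f (m g x))) - m g (m f x - π (m f x)) = _
    rw [map_sub, m_comm m f g]
    abel
  refine ftr_eq_zero_of_sq fun x => ?_
  have hy : comm (q ∘ₗ m f) (m g) x ∈ B := by
    rw [hval]
    exact sub_mem (hB g _ (hπ.mem _)) (hπ.mem _)
  rw [hval, hπ.eq _ (hB f _ hy), hπ.eq _ (hB f _ (hB g _ hy)), m_comm m f g, sub_self]

theorem E1.zero {A : Submodule K V} : E1 A (0 : V →ₗ[K] V) :=
  ⟨⊥, inferInstance, fun v => by simp⟩

theorem E2.zero {A : Submodule K V} : E2 A (0 : V →ₗ[K] V) := by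
  change FiniteDimensional K (A.map 0)
  rw [Submodule.map_zero]
  infer_instance

theorem ftr_sum_E {A : Submodule K V} {ι : Type*} (s : Finset ι) (θ : ι → V →ₗ[K] V)
    (h1 : ∀ i ∈ s, E1 A (θ i)) (h2 : ∀ i ∈ s, E2 A (θ i)) :
    E1 A (∑ i ∈ s, θ i) ∧ E2 A (∑ i ∈ s, θ i) ∧ ftr (∑ i ∈ s, θ i) = ∑ i ∈ s, ftr (θ i) := by
  classical
  induction s using Finset.induction with
  | empty =>
    simp only [Finset.sum_empty]
    exact ⟨E1.zero, E2.zero, ftr_zero⟩
  | insert a s ha ih =>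
    obtain ⟨i1, i2, i3⟩ := ih (fun i hi => h1 i (Finset.mem_insert_of_mem hi))
      (fun i hi => h2 i (Finset.mem_insert_of_mem hi))
    have a1 := h1 a (Finset.mem_insert_self a s)
    have a2 := h2 a (Finset.mem_insert_self a s)
    rw [Finset.sum_insert ha, Finset.sum_insert ha]
    exact ⟨a1.add i1, a2.add i2, by rw [ftr_add_E a1 a2 i1 i2, i3]⟩

end Fermat.Agent.Residue
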