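import Fermat.Agent.Residue.Diff
import Fermat.Agent.FF.Extension
import Fermat.Agent.FF.Construct
import Mathlib.FieldTheory.SeparablyGenerated

/-!
# The residue theorem, canonical divisors and the genus for `IsFF K F`, `K` algebraically closed
(any characteristic)
-/

set_option autoImplicit false

open AlgebraicCurve WithZero Module KaehlerDifferential
open Fermat.Agent.RR Fermat.Agent.FF
open scoped IntermediateField

namespace Fermat.Agent.Residue

variable (K F : Type*) [Field K] [Field F] [Algebra K F] [IsFF K F]

/-- a separating element -/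
theorem exists_separating [PerfectField K] :
    ∃ x : F, Transcendental K x ∧ Algebra.IsSeparable K⟮x⟯ F := by
  obtain ⟨s, hs, hsep⟩ := exists_isTranscendenceBasis_and_isSeparable_of_perfectField K F
  have h1 : (s.card : Cardinal) ≤ 1 := by
    have h2 := hs.cardinalMk_eq_trdeg
    rw [Cardinal.mk_coe_finset] at h2
    rw [h2]
    exact IsFF.trdeg_le_one K F
  have h2 : s.card ≤ 1 := by exact_mod_cast h1
  rcases Nat.le_one_iff_eq_zero_or_eq_one.mp h2 with h3 | h3
  · exfalso
    rw [Finset.card_eq_zero] at h3
    subst h3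
    obtain ⟨y, hy⟩ := IsFF.exists_transcendental (K := K) (F := F)
    rw [Finset.coe_empty, IntermediateField.adjoin_empty] at hsep
    have h4 : IsAlgebraic (⊥ : IntermediateField K F) y :=
      (Algebra.IsSeparable.isIntegral (⊥ : IntermediateField K F) y).isAlgebraic
    exact hy (h4.restrictScalars K)
  · obtain ⟨x, rfl⟩ := Finset.card_eq_one.mp h3
    rw [Finset.coe_singleton] at hsep
    refine ⟨x, ?_, hsep⟩
    have := hs.1.transcendental ⟨x, Finset.mem_singleton_self x⟩
    exact this

theorem rankLeOne_of_isFF [PerfectField K] : RankLeOne K F := by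
  obtain ⟨x, -, hx⟩ := exists_separating K F
  exact rankLeOne_of_isSeparable x

variable [IsAlgClosed K]

theorem hasCanonicalDivisor_of_isFF : HasCanonicalDivisor (K := K) (F := F) := by
  obtain ⟨x, hx⟩ := IsFF.exists_transcendental (K := K) (F := F)
  have := IsFF.finite_adjoin x hx
  exact hasCanonicalDivisor (rankLeOne_of_isFF K F) x hx

theorem nontrivial_kaehler_of_isFF : Nontrivial Ω[F⁄K] := by
  obtain ⟨v⟩ : Nonempty (Place K F) := inferInstance
  exact nontrivial_kaehler v

variable {K F}

theorem dCoordGenerates_of_isFF (v : Place K F) : v.DCoordGenerates :=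
  dCoordGenerates v (rankLeOne_of_isFF K F)

omit [IsAlgClosed K] in
/-- **The residue theorem.** -/
theorem finsum_resAt_of_isFF (ω : Ω[F⁄K]) : ∑ᶠ v : Place K F, resAt v ω = 0 := by
  obtain ⟨x, hx⟩ := IsFF.exists_transcendental (K := K) (F := F)
  have := IsFF.finite_adjoin x hx
  exact finsum_resAt x hx ω

/-- **Serre duality, degree and `ℓ` of the canonical divisor.** -/
theorem canonical_of_isFF {ω : Ω[F⁄K]} (hω : ω ≠ 0) {W : Divisor K F}
    (hW : ∀ v : Place K F, W v = v.ordDifferential ω) :
    (∀ D : Divisor K F, hone D = ell (W - D)) ∧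
      Divisor.degree W = 2 * (genusFF K F : ℤ) - 2 ∧ ell W = genusFF K F := by
  obtain ⟨x, hx⟩ := IsFF.exists_transcendental (K := K) (F := F)
  have := IsFF.finite_adjoin x hx
  exact degree_of_ordDifferential (rankLeOne_of_isFF K F) x hx hω hW

variable (K F)

/-- Kähler genus = repartition genus. -/
theorem genus_eq_genusFF_of_isFF [HasCanonicalDivisor (K := K) (F := F)] :
    AlgebraicCurve.genus K F = genusFF K F := by
  obtain ⟨x, hx⟩ := IsFF.exists_transcendental (K := K) (F := F)
  have := IsFF.finite_adjoin x hx
  exact genus_eq_genusFF (rankLeOne_of_isFF K F) x hx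

end Fermat.Agent.Residue
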