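import Fermat.Agent.Residue.Global
import Fermat.Prelude.Def_AlgebraicCurve_CanonicalDivisor
import Fermat.Prelude.Def_AlgebraicCurve_IsCurveOver

/-!
# Kähler differentials and Weil differentials: canonical divisors, Serre duality, the genus
-/

set_option autoImplicit false

open AlgebraicCurve WithZero Module KaehlerDifferential
open Fermat.Agent.RR
open scoped IntermediateField

namespace Fermat.Agent.Residue

variable {K F : Type*} [Field K] [Field F] [Algebra K F]

variable (K F) in
/-- `Ω[F⁄K]` is at most one-dimensional. -/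
def RankLeOne : Prop := ∀ η ω : Ω[F⁄K], η ≠ 0 → ∃ c : F, ω = c • η

theorem rankLeOne_of_finrank (h : Module.finrank F Ω[F⁄K] = 1) : RankLeOne K F := by
  intro η ω hη
  have := (finrank_eq_one_iff_of_nonzero' η hη).mp h ω
  obtain ⟨c, hc⟩ := this
  exact ⟨c, hc.symm⟩

theorem rankLeOne_of_isCurveOver [IsCurveOver K F] : RankLeOne K F :=
  rankLeOne_of_finrank IsCurveOver.finrank_kaehler

theorem rankLeOne_of_span {ξ : Ω[F⁄K]} (h : Submodule.span F {ξ} = ⊤) : RankLeOne K F := by
  intro η ω hη
  have h1 : η ∈ Submodule.span F {ξ} := h ▸ Submodule.mem_top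
  have h2 : ω ∈ Submodule.span F {ξ} := h ▸ Submodule.mem_top
  obtain ⟨a, rfl⟩ := Submodule.mem_span_singleton.mp h1
  obtain ⟨b, rfl⟩ := Submodule.mem_span_singleton.mp h2
  have ha : a ≠ 0 := fun h0 => hη (by rw [h0, zero_smul])
  exact ⟨b * a⁻¹, by rw [mul_smul, inv_smul_smul₀ ha]⟩

theorem rankLeOne_of_dCoordGenerates (v : Place K F) [v.DCoordGenerates] : RankLeOne K F :=
  rankLeOne_of_span (Place.DCoordGenerates.span_eq_top (v := v))

/-- `Ω[F⁄K]` is spanned by `dx` if `F / K(x)` is separable algebraic. -/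
theorem span_D_of_isSeparable (x : F) [Algebra.IsSeparable K⟮x⟯ F] :
    Submodule.span F {D K F x} = ⊤ := by
  have h1 : Subsingleton (Ω[F⁄K⟮x⟯]) := by
    have : Algebra.FormallyUnramified K⟮x⟯ F := Algebra.FormallyUnramified.of_isSeparable _ _
    infer_instance
  have h2 : Function.Surjective (KaehlerDifferential.mapBaseChange K K⟮x⟯ F) := by
    have h3 := KaehlerDifferential.exact_mapBaseChange_map K K⟮x⟯ F
    intro ω
    exact (h3 ω).mp (Subsingleton.elim _ _)
  rw [eq_top_iff]
  have h4 : ∀ y : K⟮x⟯, D K F (algebraMap K⟮x⟯ F y) ∈ Submodule.span F {D K F x} := by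
    intro y
    have hy : (y : F) ∈ K⟮x⟯ := y.2
    change D K F (y : F) ∈ _
    generalize (y : F) = z at hy
    induction hy using IntermediateField.adjoin_induction with
    | mem z hz =>
      rw [Set.mem_singleton_iff] at hz
      subst hz
      exact Submodule.mem_span_singleton_self _
    | algebraMap c => rw [Derivation.map_algebraMap]; exact zero_mem _
    | add a b _ _ ha hb => rw [map_add]; exact add_mem ha hb
    | inv a _ ha =>
      rw [Derivation.leibniz_inv]
      exact Submodule.smul_mem _ _ ha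
    | mul a b _ _ ha hb =>
      rw [Derivation.leibniz]
      exact add_mem (Submodule.smul_mem _ _ hb) (Submodule.smul_mem _ _ ha)
  rintro ω -
  obtain ⟨z, rfl⟩ := h2 ω
  induction z using TensorProduct.induction_on with
  | zero => rw [map_zero]; exact zero_mem _
  | add a b ha hb => rw [map_add]; exact add_mem ha hb
  | tmul a η =>
    rw [KaehlerDifferential.mapBaseChange_tmul]
    apply Submodule.smul_mem
    have h5 : η ∈ Submodule.span K⟮x⟯ (Set.range (D K K⟮x⟯)) := by
      rw [KaehlerDifferential.span_range_derivation]; exact Submodule.mem_top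
    induction h5 using Submodule.span_induction with
    | mem η hη =>
      obtain ⟨y, rfl⟩ := hη
      rw [KaehlerDifferential.map_D]
      exact h4 y
    | zero => rw [map_zero]; exact zero_mem _
    | add a b _ _ ha hb => rw [map_add]; exact add_mem ha hb
    | smul c a _ ha =>
      rw [map_smul, algebra_compatible_smul F c]
      exact Submodule.smul_mem _ _ ha

theorem rankLeOne_of_isSeparable (x : F) [Algebra.IsSeparable K⟮x⟯ F] : RankLeOne K F :=
  rankLeOne_of_span (span_D_of_isSeparable x)

/-- characteristic zero -/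
theorem rankLeOne_of_charZero [CharZero K] (x : F) [Algebra.IsAlgebraic K⟮x⟯ F] :
    RankLeOne K F := by
  have : CharZero K⟮x⟯ := charZero_of_injective_algebraMap (algebraMap K K⟮x⟯).injective
  exact rankLeOne_of_isSeparable x

section Local

variable (v : Place K F) [hv : v.FiniteResidue]

theorem deg_eq_one [IsAlgClosed K] : v.deg = 1 := by
  have := hv.finite
  have h1 : Algebra.IsIntegral K v.ResidueField := Algebra.IsIntegral.of_finite K _
  have h2 : Function.Bijective (algebraMap K v.ResidueField) :=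
    IsAlgClosed.algebraMap_bijective_of_isIntegral
  have e : K ≃ₗ[K] v.ResidueField :=
    (AlgEquiv.ofBijective (Algebra.ofId K v.ResidueField) h2).toLinearEquiv
  rw [Place.deg, ← e.finrank_eq, Module.finrank_self]

theorem resAt_inv_smul_D_eq_one [IsAlgClosed K] {t : F} (ht : v.adicValuation t = exp (-1 : ℤ)) :
    resAt v (t⁻¹ • D K F t) = 1 := by
  rw [resAt_inv_smul_D v ht, deg_eq_one, Nat.cast_one]

theorem D_ne_zero [IsAlgClosed K] {t : F} (ht : v.adicValuation t = exp (-1 : ℤ)) :
    D K F t ≠ 0 := by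
  intro h
  have := resAt_inv_smul_D_eq_one v ht
  rw [h, smul_zero, map_zero] at this
  exact zero_ne_one this

omit hv in
theorem dCoord_eq : v.dCoord = D K F (unif v) := rfl

theorem dCoord_ne_zero' [IsAlgClosed K] : v.dCoord ≠ 0 := D_ne_zero v (adicValuation_unif v)

include v in
theorem nontrivial_kaehler [IsAlgClosed K] : Nontrivial Ω[F⁄K] :=
  ⟨⟨v.dCoord, 0, dCoord_ne_zero' v⟩⟩

theorem dCoordGenerates [IsAlgClosed K] (h : RankLeOne K F) : v.DCoordGenerates := by
  refine ⟨?_⟩
  rw [eq_top_iff]
  intro ω _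
  obtain ⟨c, hc⟩ := h _ ω (dCoord_ne_zero' v)
  exact Submodule.mem_span_singleton.mpr ⟨c, hc.symm⟩

/-- a function with prescribed leading behaviour detects the order of a differential. -/
theorem mem_ball_of_resAt [IsAlgClosed K] {t c : F} (ht : v.adicValuation t = exp (-1 : ℤ))
    {n : ℤ} (h : ∀ a ∈ ball v n, resAt v ((a * c) • D K F t) = 0) : c ∈ ball v (-n) := by
  by_contra hc
  have hc0 : c ≠ 0 := fun h0 => hc (h0 ▸ zero_mem _)
  have ht0 : t ≠ 0 := by
    rintro rfl
    rw [map_zero] at ht
    exact exp_ne_zero ht.symm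
  rw [mem_ball, v.adicValuation_eq_exp_neg_ord hc0, exp_le_exp] at hc
  have h1 : t⁻¹ * c⁻¹ ∈ ball v n := by
    rw [mem_ball, map_mul, map_inv₀, map_inv₀, ht, v.adicValuation_eq_exp_neg_ord hc0, ← exp_neg,
      ← exp_neg, ← exp_add, exp_le_exp]
    omega
  have h2 := h _ h1
  rw [mul_assoc, inv_mul_cancel₀ hc0, mul_one, resAt_inv_smul_D_eq_one v ht] at h2
  exact one_ne_zero h2

theorem resAt_eq_zero_of_mem_ball {t c a : F} (ht : v.adicValuation t = exp (-1 : ℤ)) {n : ℤ}
    (hc : c ∈ ball v (-n)) (ha : a ∈ ball v n) : resAt v ((a * c) • D K F t) = 0 := by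
  refine resAt_eq_zero v ?_ ?_
  · rw [mem_ball, map_mul]
    calc v.adicValuation a * v.adicValuation c ≤ exp n * exp (-n) := by
          gcongr
          · exact mem_ball.mp ha
          · exact mem_ball.mp hc
      _ = exp 0 := by rw [← exp_add]; simp
  · rw [mem_ball, ht]
    exact exp_le_exp.mpr (by norm_num)

theorem forall_resAt_eq_zero_iff [IsAlgClosed K] {t c : F}
    (ht : v.adicValuation t = exp (-1 : ℤ)) (n : ℤ) :
    (∀ a ∈ ball v n, resAt v ((a * c) • D K F t) = 0) ↔ c ∈ ball v (-n) :=
  ⟨mem_ball_of_resAt v ht, fun hc _ ha => resAt_eq_zero_of_mem_ball v ht hc ha⟩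

/-- `dg = c dt` with `c` integral if `g` is integral. -/
theorem coeff_integral [IsAlgClosed K] {t c g : F} (ht : v.adicValuation t = exp (-1 : ℤ))
    (hg : g ∈ ball v 0) (h : D K F g = c • D K F t) : c ∈ ball v 0 := by
  have := mem_ball_of_resAt v ht (c := c) (n := 0) fun a ha => by
    rw [mul_smul, ← h]
    exact resAt_eq_zero v ha hg
  rwa [neg_zero] at this

theorem forall_resAt_iff_ord [IsAlgClosed K] [v.DCoordGenerates] {ω : Ω[F⁄K]} (hω : ω ≠ 0)
    (n : ℤ) : (∀ a ∈ ball v n, resAt v (a • ω) = 0) ↔ n ≤ v.ordDifferential ω := by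
  have h1 := v.differentialCoeff_smul_dCoord ω
  have hc0 : v.differentialCoeff ω ≠ 0 := by
    intro h
    rw [h, zero_smul] at h1
    exact hω h1.symm
  have h2 := forall_resAt_eq_zero_iff v (c := v.differentialCoeff ω) (adicValuation_unif v) n
  rw [← dCoord_eq] at h2
  simp only [mul_smul, h1] at h2
  rw [h2, mem_ball, v.adicValuation_eq_exp_neg_ord hc0, exp_le_exp]
  change _ ↔ n ≤ v.ord (v.differentialCoeff ω)
  omega

end Local

section Global

variable [HasPrincipalDivisors K F] [hne : Nonempty (Place K F)]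
  [hfr : ∀ v : Place K F, v.FiniteResidue]

omit hne [∀ v : Place K F, v.FiniteResidue] in
theorem exists_finset_ball (f : F) : ∃ T : Finset (Place K F), ∀ v ∉ T, f ∈ ball v 0 := by
  refine ⟨(pole f : Divisor K F).support, fun v hv => ?_⟩
  rw [Finsupp.mem_support_iff, not_not] at hv
  have := adicValuation_le_pole (K := K) f v
  rwa [hv] at this

omit hne in
theorem exists_finset_resAt (ω : Ω[F⁄K]) :
    ∃ T : Finset (Place K F), ∀ v ∉ T, ∀ a ∈ ball v 0, resAt v (a • ω) = 0 := by
  classical
  have h : ω ∈ Submodule.span F (Set.range (D K F)) := by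
    rw [KaehlerDifferential.span_range_derivation]; exact Submodule.mem_top
  induction h using Submodule.span_induction with
  | mem ω hω =>
    obtain ⟨g, rfl⟩ := hω
    obtain ⟨T, hT⟩ := exists_finset_ball (K := K) g
    exact ⟨T, fun v hv a ha => resAt_eq_zero v ha (hT v hv)⟩
  | zero => exact ⟨∅, fun v _ a _ => by rw [smul_zero, map_zero]⟩
  | add a b _ _ ha hb =>
    obtain ⟨T, hT⟩ := ha
    obtain ⟨S, hS⟩ := hb
    refine ⟨T ∪ S, fun v hv c hc => ?_⟩
    rw [Finset.mem_union, not_or] at hv
    rw [smul_add, map_add, hT v hv.1 c hc, hS v hv.2 c hc, add_zero]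
  | smul f a _ ha =>
    obtain ⟨T, hT⟩ := ha
    obtain ⟨S, hS⟩ := exists_finset_ball (K := K) f
    refine ⟨T ∪ S, fun v hv c hc => ?_⟩
    rw [Finset.mem_union, not_or] at hv
    rw [← mul_smul]
    exact hT v hv.1 _ (mul_mem_ball_zero v hc (hS v hv.2))

omit hne in
theorem finite_resAt_rep (ω : Ω[F⁄K]) (α : ↥(repartitions K F)) :
    (Function.support fun v : Place K F => resAt v (comp v α • ω)).Finite := by
  obtain ⟨T, hT⟩ := exists_finset_resAt (K := K) ω
  refine (T.finite_toSet.union (mem_repartitions_finite (K := K) α.2)).subset fun v hv => ?_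
  by_contra hcon
  rw [Set.mem_union, not_or] at hcon
  obtain ⟨h1, h2⟩ := hcon
  apply hv
  refine hT v (by simpa using h1) _ ?_
  by_contra h3
  apply h2
  change ¬ _
  rwa [mem_ball, exp_zero] at h3

omit hne in
theorem finite_resAt (ω : Ω[F⁄K]) :
    (Function.support fun v : Place K F => resAt v ω).Finite := by
  obtain ⟨T, hT⟩ := exists_finset_resAt (K := K) ω
  refine T.finite_toSet.subset fun v hv => ?_
  by_contra hcon
  apply hv
  have := hT v (by simpa using hcon) 1 (one_mem_ball v)
  rwa [one_smul] at this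

/-- **The residue theorem.** -/
theorem finsum_resAt (x : F) (hx : Transcendental K x) [FiniteDimensional K⟮x⟯ F]
    (ω : Ω[F⁄K]) : ∑ᶠ v : Place K F, resAt v ω = 0 := by
  classical
  have key : ∀ f : F, ∑ᶠ v : Place K F, resAt v (f • ω) = 0 := by
    have h : ω ∈ Submodule.span F (Set.range (D K F)) := by
      rw [KaehlerDifferential.span_range_derivation]; exact Submodule.mem_top
    induction h using Submodule.span_induction with
    | mem ω hω =>
      obtain ⟨g, rfl⟩ := hω
      intro f
      obtain ⟨T, hT⟩ := exists_finset_ball (K := K) g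
      obtain ⟨S, hS⟩ := exists_finset_ball (K := K) f
      have hT' : ∀ v ∉ T ∪ S, g ∈ ball v 0 := fun v hv => hT v fun h => hv
        (Finset.mem_union_left _ h)
      have hS' : ∀ v ∉ T ∪ S, f ∈ ball v 0 := fun v hv => hS v fun h => hv
        (Finset.mem_union_right _ h)
      rw [finsum_eq_sum_of_support_subset (s := T ∪ S)]
      · exact sum_resAt_smul_D x hx hS' hT'
      · intro v hv
        by_contra hcon
        rw [Finset.mem_coe] at hcon
        exact hv (resAt_eq_zero v (hS' v hcon) (hT' v hcon))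
    | zero => intro f; simp
    | add a b _ _ ha hb =>
      intro f
      simp only [smul_add, map_add]
      rw [finsum_add_distrib (finite_resAt _) (finite_resAt _), ha, hb, add_zero]
    | smul g a _ ha =>
      intro f
      simp only [← mul_smul]
      exact ha _
  simpa using key 1

/-- The Weil differential attached to a Kähler differential. -/
noncomputable def weilOf (ω : Ω[F⁄K]) : Dual K ↥(repartitions K F) where
  toFun α := ∑ᶠ v : Place K F, resAt v (comp v α • ω)
  map_add' α β := by
    rw [← finsum_add_distrib (finite_resAt_rep _ _) (finite_resAt_rep _ _)]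
    refine finsum_congr fun v => ?_
    rw [map_add, add_smul, map_add]
  map_smul' c α := by
    rw [RingHom.id_apply, smul_eq_mul, mul_finsum]
    refine finsum_congr fun v => ?_
    rw [(comp v).map_smul, smul_assoc, (resAt v).map_smul, smul_eq_mul]

omit hne in
theorem weilOf_apply (ω : Ω[F⁄K]) (α : ↥(repartitions K F)) :
    weilOf ω α = ∑ᶠ v : Place K F, resAt v (comp v α • ω) := rfl

omit hne in
theorem weilOf_incl (ω : Ω[F⁄K]) (v : Place K F) (a : F) :
    weilOf ω (incl v a) = resAt v (a • ω) := by
  rw [weilOf_apply, finsum_eq_single _ v, comp_incl_same]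
  intro w hw
  rw [comp_incl_ne hw, zero_smul, map_zero]

theorem weilOf_mem_iff (x : F) (hx : Transcendental K x) [FiniteDimensional K⟮x⟯ F]
    (ω : Ω[F⁄K]) (D : Divisor K F) :
    weilOf ω ∈ weil D ↔ ∀ v : Place K F, ∀ a ∈ ball v (D v), resAt v (a • ω) = 0 := by
  rw [mem_weil]
  constructor
  · rintro ⟨h, -⟩ v a ha
    rw [← weilOf_incl]
    refine h _ ?_
    rw [mem_repartitionsOf]
    intro w
    change comp w (incl v a) ∈ _
    by_cases hw : w = v
    · subst hw; rw [comp_incl_same]; exact ha
    · rw [comp_incl_ne hw]; exact zero_mem _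
  · intro h
    refine ⟨fun α hα => ?_, fun α hα => ?_⟩
    · rw [weilOf_apply]
      refine finsum_eq_zero_of_forall_eq_zero fun v => h v _ ?_
      exact mem_repartitionsOf.mp hα v
    · obtain ⟨f, hf⟩ := mem_principalRepartitions_iff.mp hα
      rw [weilOf_apply]
      have h1 : ∀ v : Place K F, comp v α = f := fun v => congrFun hf v
      simp only [h1]
      exact finsum_resAt x hx (f • ω)

variable [IsAlgClosed K]

theorem weilOf_mem_weil_iff (hr : RankLeOne K F) (x : F) (hx : Transcendental K x)
    [FiniteDimensional K⟮x⟯ F] {ω : Ω[F⁄K]} (hω : ω ≠ 0) (D : Divisor K F) :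
    weilOf ω ∈ weil D ↔ ∀ v : Place K F, D v ≤ v.ordDifferential ω := by
  rw [weilOf_mem_iff x hx]
  refine forall_congr' fun v => ?_
  have := dCoordGenerates v hr
  exact forall_resAt_iff_ord v hω (D v)

omit [Nonempty (Place K F)] in
theorem exists_weilOf_mem (hr : RankLeOne K F) {ω : Ω[F⁄K]} (hω : ω ≠ 0) :
    ∃ D : Divisor K F, ∀ v : Place K F, D v ≤ v.ordDifferential ω := by
  classical
  obtain ⟨T, hT⟩ := exists_finset_resAt (K := K) ω
  refine ⟨∑ v ∈ T, Finsupp.single v (v.ordDifferential ω), fun w => ?_⟩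
  rw [Finsupp.finsetSum_apply]
  by_cases hw : w ∈ T
  · rw [Finset.sum_eq_single w]
    · rw [Finsupp.single_eq_same]
    · intro v _ hvw
      exact Finsupp.single_eq_of_ne' hvw
    · exact fun h => absurd hw h
  · rw [Finset.sum_eq_zero]
    · have := dCoordGenerates w hr
      exact (forall_resAt_iff_ord w hω 0).mp (hT w hw)
    · intro v hv
      refine Finsupp.single_eq_of_ne' ?_
      rintro rfl
      exact hw hv

/-- **Serre duality with Kähler differentials**, and the genus. -/
theorem exists_canonical_divisor (hr : RankLeOne K F) (x : F) (hx : Transcendental K x)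
    [FiniteDimensional K⟮x⟯ F] {ω : Ω[F⁄K]} (hω : ω ≠ 0) :
    ∃ W : Divisor K F, (∀ v : Place K F, W v = v.ordDifferential ω) ∧
      (∀ D : Divisor K F, hone D = ell (W - D)) ∧
      Divisor.degree W = 2 * (genusFF K F : ℤ) - 2 ∧ ell W = genusFF K F := by
  have hR : weilOf ω ≠ 0 := by
    intro h
    obtain ⟨v⟩ := hne
    have := dCoordGenerates v hr
    have h1 : v.ordDifferential ω + 1 ≤ v.ordDifferential ω := by
      rw [← forall_resAt_iff_ord v hω]
      intro a _
      rw [← weilOf_incl, h]
      rfl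
    omega
  obtain ⟨D₁, hD₁⟩ := exists_weilOf_mem hr hω
  have h₁ := (weilOf_mem_weil_iff hr x hx hω D₁).mpr hD₁
  obtain ⟨W, hW⟩ := exists_weil_divisor x hx h₁ hR
  have hWv : ∀ v : Place K F, W v = v.ordDifferential ω := by
    have h2 := (weilOf_mem_weil_iff hr x hx hω W).mp ((hW W).mpr le_rfl)
    intro v
    refine le_antisymm (h2 v) ?_
    have h3 : W + Finsupp.single v (v.ordDifferential ω - W v) ≤ W := by
      rw [← hW, weilOf_mem_weil_iff hr x hx hω]
      intro w
      rw [Finsupp.add_apply]
      by_cases hw : w = v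
      · subst hw; rw [Finsupp.single_eq_same]; omega
      · rw [Finsupp.single_eq_of_ne hw, add_zero]; exact h2 w
    have h4 := h3 v
    rw [Finsupp.add_apply, Finsupp.single_eq_same] at h4
    omega
  have hdual := serre_duality_aux x hx hR hW
  have h0 : ell W = genusFF K F := by
    have := hdual 0
    rw [sub_zero] at this
    rw [← this]
    rfl
  refine ⟨W, hWv, hdual, ?_, h0⟩
  have h1 := hdual W
  rw [sub_self] at h1
  have h2 := riemannRoch (K := K) x hx W
  have h3 := ell_zero (K := K) (F := F)
  omega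

theorem hasCanonicalDivisor (hr : RankLeOne K F) (x : F) (hx : Transcendental K x)
    [FiniteDimensional K⟮x⟯ F] : HasCanonicalDivisor (K := K) (F := F) := by
  refine ⟨fun ω hω => ?_⟩
  obtain ⟨W, hW, -⟩ := exists_canonical_divisor hr x hx hω
  exact ⟨W, hW⟩

/-- degree of the divisor of a differential -/
theorem degree_of_ordDifferential (hr : RankLeOne K F) (x : F) (hx : Transcendental K x)
    [FiniteDimensional K⟮x⟯ F] {ω : Ω[F⁄K]} (hω : ω ≠ 0) {W : Divisor K F}
    (hW : ∀ v : Place K F, W v = v.ordDifferential ω) :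
    (∀ D : Divisor K F, hone D = ell (W - D)) ∧
      Divisor.degree W = 2 * (genusFF K F : ℤ) - 2 ∧ ell W = genusFF K F := by
  obtain ⟨W', hW', h⟩ := exists_canonical_divisor hr x hx hω
  have : W = W' := Finsupp.ext fun v => (hW v).trans (hW' v).symm
  rw [this]
  exact h

/-- The genus defined by Kähler differentials is the genus defined by repartitions. -/
theorem genus_eq_genusFF (hr : RankLeOne K F) (x : F) (hx : Transcendental K x)
    [FiniteDimensional K⟮x⟯ F] [HasCanonicalDivisor (K := K) (F := F)] :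
    AlgebraicCurve.genus K F = genusFF K F := by
  classical
  obtain ⟨v⟩ := hne
  have : Nonempty (Place K F) := ⟨v⟩
  have hnt := nontrivial_kaehler v
  have hex : ∃ ω : Ω[F⁄K], ω ≠ 0 := exists_ne 0
  have h1 := (degree_of_ordDifferential hr x hx hex.choose_spec
    (canonicalDivisorOf_apply hex.choose_spec)).2.1
  rw [AlgebraicCurve.genus, dif_pos hex, h1]
  omega

end Global

end Fermat.Agent.Residue
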