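import Mathlib.LinearAlgebra.Trace
import Mathlib.LinearAlgebra.FiniteDimensional.Lemmas
import Mathlib.LinearAlgebra.Basis.VectorSpace

/-!
# Tate's trace of finite-potent endomorphisms
-/

set_option autoImplicit false

open Module

namespace Fermat.Agent.Residue

universe u

variable {K : Type*} [Field K] {V V' : Type*} [AddCommGroup V] [Module K V] [AddCommGroup V']
  [Module K V']

/-- `U` is a finite-dimensional `θ`-stable subspace with `θ ^ n V ⊆ U` for some `n`. -/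
structure Core (θ : V →ₗ[K] V) (U : Submodule K V) : Prop where
  finite : FiniteDimensional K U
  stable : ∀ u ∈ U, θ u ∈ U
  absorbs : ∃ n : ℕ, ∀ v, (θ ^ n) v ∈ U

/-- finite-potent endomorphisms -/
def FP (θ : V →ₗ[K] V) : Prop := ∃ U, Core θ U

open Classical in
/-- Tate's trace. -/
noncomputable def ftr (θ : V →ₗ[K] V) : K :=
  if h : FP θ then LinearMap.trace K h.choose (θ.restrict h.choose_spec.stable) else 0

/-- trace of `θ` on a stable subspace containing `θ U`. -/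
theorem trace_eq_of_map_le (θ : V →ₗ[K] V) {W U : Submodule K V} (hWU : W ≤ U)
    [FiniteDimensional K U] (hW : ∀ w ∈ W, θ w ∈ W) (hU : ∀ u ∈ U, θ u ∈ U)
    (h : ∀ u ∈ U, θ u ∈ W) :
    LinearMap.trace K U (θ.restrict hU) = LinearMap.trace K W (θ.restrict hW) := by
  have : FiniteDimensional K W := Submodule.finiteDimensional_of_le hWU
  let f : U →ₗ[K] W := (θ.comp U.subtype).codRestrict W (fun u => h u u.2)
  let g : W →ₗ[K] U := Submodule.inclusion hWU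
  have h1 : θ.restrict hU = g ∘ₗ f := by ext; rfl
  have h2 : θ.restrict hW = f ∘ₗ g := by ext; rfl
  rw [h1, h2, LinearMap.trace_comp_comm']

theorem trace_eq_of_pow_le (θ : V →ₗ[K] V) (n : ℕ) : ∀ {W U : Submodule K V} (_ : W ≤ U)
    [FiniteDimensional K U] (hW : ∀ w ∈ W, θ w ∈ W) (hU : ∀ u ∈ U, θ u ∈ U)
    (_ : ∀ u ∈ U, (θ ^ n) u ∈ W),
    LinearMap.trace K U (θ.restrict hU) = LinearMap.trace K W (θ.restrict hW) := by
  induction n with
  | zero =>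
    intro W U hWU _ hW hU h
    have : W = U := le_antisymm hWU (fun u hu => by simpa using h u hu)
    subst this
    rfl
  | succ n ih =>
    intro W U hWU _ hW hU h
    set U' := W ⊔ U.map θ with hU'
    have hU'U : U' ≤ U := by
      refine sup_le hWU ?_
      rw [Submodule.map_le_iff_le_comap]
      exact hU
    have hθU : ∀ u ∈ U, θ u ∈ U' := fun u hu => Submodule.mem_sup_right ⟨u, hu, rfl⟩
    have hst : ∀ u ∈ U', θ u ∈ U' := fun u hu => hθU u (hU'U hu)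
    have : FiniteDimensional K U' := Submodule.finiteDimensional_of_le hU'U
    rw [trace_eq_of_map_le θ hU'U hst hU hθU]
    apply ih le_sup_left hW hst
    intro u hu
    obtain ⟨w, hw, y, ⟨z, hz, rfl⟩, rfl⟩ := Submodule.mem_sup.mp hu
    rw [map_add]
    refine add_mem ?_ ?_
    · clear ih h hu hst this hz
      induction n with
      | zero => simpa using hw
      | succ n ih => rw [pow_succ', Module.End.mul_apply]; exact hW _ ih
    · have := h z hz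
      rwa [pow_succ, Module.End.mul_apply] at this

theorem Core.pow_mem {θ : V →ₗ[K] V} {U : Submodule K V} (h : Core θ U) (n : ℕ) :
    ∀ u ∈ U, (θ ^ n) u ∈ U := by
  intro u hu
  induction n with
  | zero => simpa using hu
  | succ n ih => rw [pow_succ', Module.End.mul_apply]; exact h.stable _ ih

theorem Core.inf {θ : V →ₗ[K] V} {U U' : Submodule K V} (h : Core θ U) (h' : Core θ U') :
    Core θ (U ⊓ U') := by
  obtain ⟨n, hn⟩ := h.absorbs
  obtain ⟨m, hm⟩ := h'.absorbs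
  have := h.finite
  refine ⟨Submodule.finiteDimensional_of_le inf_le_left, fun u hu =>
    ⟨h.stable u hu.1, h'.stable u hu.2⟩, n + m, fun v => ⟨?_, ?_⟩⟩
  · rw [pow_add, Module.End.mul_apply]
    exact hn _
  · rw [add_comm, pow_add, Module.End.mul_apply]
    exact hm _

theorem trace_core_eq {θ : V →ₗ[K] V} {U U' : Submodule K V} (h : Core θ U) (h' : Core θ U') :
    LinearMap.trace K U (θ.restrict h.stable) = LinearMap.trace K U' (θ.restrict h'.stable) := by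
  have h1 := h.finite
  have h2 := h'.finite
  obtain ⟨n, hn⟩ := (h.inf h').absorbs
  rw [trace_eq_of_pow_le θ n inf_le_left (h.inf h').stable h.stable (fun u _ => hn u),
    trace_eq_of_pow_le θ n inf_le_right (h.inf h').stable h'.stable (fun u _ => hn u)]

theorem ftr_eq {θ : V →ₗ[K] V} {U : Submodule K V} (h : Core θ U) :
    ftr θ = LinearMap.trace K U (θ.restrict h.stable) := by
  classical
  have hFP : FP θ := ⟨U, h⟩
  rw [ftr, dif_pos hFP]
  exact trace_core_eq hFP.choose_spec h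

/-- `Tr(ba) = Tr(ab)`. -/
theorem ftr_comp_comm {a : V →ₗ[K] V'} {b : V' →ₗ[K] V} (h : FP (b ∘ₗ a)) :
    FP (a ∘ₗ b) ∧ ftr (a ∘ₗ b) = ftr (b ∘ₗ a) := by
  obtain ⟨U, hU⟩ := h
  have hfin := hU.finite
  set U' : Submodule K V' := U.map a with hU'
  have hpow : ∀ (n : ℕ) (v : V'), ((a ∘ₗ b) ^ (n + 1)) v = a (((b ∘ₗ a) ^ n) (b v)) := by
    intro n
    induction n with
    | zero => intro v; simp
    | succ n ih =>
      intro v
      rw [pow_succ', Module.End.mul_apply, ih, pow_succ', Module.End.mul_apply]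
      rfl
  have hcore : Core (a ∘ₗ b) U' := by
    refine ⟨inferInstance, ?_, ?_⟩
    · rintro _ ⟨u, hu, rfl⟩
      exact ⟨b (a u), hU.stable u hu, rfl⟩
    · obtain ⟨n, hn⟩ := hU.absorbs
      refine ⟨n + 1, fun v => ?_⟩
      rw [hpow]
      exact ⟨_, hn _, rfl⟩
  refine ⟨⟨U', hcore⟩, ?_⟩
  rw [ftr_eq hcore, ftr_eq hU]
  let f : U →ₗ[K] U' := (a.comp U.subtype).codRestrict U' (fun u => ⟨u, u.2, rfl⟩)
  let g : U' →ₗ[K] U := (b.comp U'.subtype).codRestrict U (by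
    rintro ⟨_, ⟨u, hu, rfl⟩⟩
    exact hU.stable u hu)
  have h1 : (a ∘ₗ b).restrict hcore.stable = f ∘ₗ g := by ext; rfl
  have h2 : (b ∘ₗ a).restrict hU.stable = g ∘ₗ f := by ext; rfl
  rw [h1, h2, LinearMap.trace_comp_comm']

/-- `θ V ⊆ X` and `θ X` finite-dimensional. -/
structure Sub (X : Submodule K V) (θ : V →ₗ[K] V) : Prop where
  range_le : ∀ v, θ v ∈ X
  finite : FiniteDimensional K (X.map θ)

theorem Sub.core {X : Submodule K V} {θ : V →ₗ[K] V} (h : Sub X θ) : Core θ (X.map θ) := by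
  refine ⟨h.finite, ?_, 2, fun v => ?_⟩
  · rintro _ ⟨x, _, rfl⟩
    exact ⟨θ x, h.range_le x, rfl⟩
  · rw [pow_two, Module.End.mul_apply]
    exact ⟨θ v, h.range_le v, rfl⟩

theorem Sub.FP {X : Submodule K V} {θ : V →ₗ[K] V} (h : Sub X θ) : FP θ := ⟨_, h.core⟩

theorem Sub.add {X : Submodule K V} {θ φ : V →ₗ[K] V} (h : Sub X θ) (h' : Sub X φ) :
    Sub X (θ + φ) := by
  refine ⟨fun v => add_mem (h.range_le v) (h'.range_le v), ?_⟩
  have h1 := h.finite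
  have h2 := h'.finite
  refine Submodule.finiteDimensional_of_le (S₂ := X.map θ ⊔ X.map φ) ?_
  rintro _ ⟨x, hx, rfl⟩
  exact Submodule.add_mem_sup ⟨x, hx, rfl⟩ ⟨x, hx, rfl⟩

theorem Sub.smul {X : Submodule K V} {θ : V →ₗ[K] V} (h : Sub X θ) (c : K) :
    Sub X (c • θ) := by
  refine ⟨fun v => X.smul_mem c (h.range_le v), ?_⟩
  have h1 := h.finite
  refine Submodule.finiteDimensional_of_le (S₂ := X.map θ) ?_
  rintro _ ⟨x, hx, rfl⟩
  exact Submodule.smul_mem _ c ⟨x, hx, rfl⟩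

theorem ftr_add {X : Submodule K V} {θ φ : V →ₗ[K] V} (h : Sub X θ) (h' : Sub X φ) :
    ftr (θ + φ) = ftr θ + ftr φ := by
  have h1 := h.finite
  have h2 := h'.finite
  set U := X.map θ ⊔ X.map φ with hU
  have hUX : U ≤ X := by
    refine sup_le ?_ ?_
    · rintro _ ⟨x, _, rfl⟩; exact h.range_le x
    · rintro _ ⟨x, _, rfl⟩; exact h'.range_le x
  have c1 : Core θ U := ⟨inferInstance, fun u hu => Submodule.mem_sup_left ⟨u, hUX hu, rfl⟩, 2,
    fun v => by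
      rw [pow_two, Module.End.mul_apply]
      exact Submodule.mem_sup_left ⟨θ v, h.range_le v, rfl⟩⟩
  have c2 : Core φ U := ⟨inferInstance, fun u hu => Submodule.mem_sup_right ⟨u, hUX hu, rfl⟩, 2,
    fun v => by
      rw [pow_two, Module.End.mul_apply]
      exact Submodule.mem_sup_right ⟨φ v, h'.range_le v, rfl⟩⟩
  have c3 : Core (θ + φ) U := ⟨inferInstance, fun u hu => add_mem (c1.stable u hu) (c2.stable u hu),
    2, fun v => by
      rw [pow_two, Module.End.mul_apply]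
      have hx : (θ + φ) v ∈ X := add_mem (h.range_le v) (h'.range_le v)
      exact Submodule.add_mem_sup ⟨_, hx, rfl⟩ ⟨_, hx, rfl⟩⟩
  rw [ftr_eq c1, ftr_eq c2, ftr_eq c3, ← map_add]
  congr 1

theorem ftr_smul {X : Submodule K V} {θ : V →ₗ[K] V} (h : Sub X θ) (c : K) :
    ftr (c • θ) = c * ftr θ := by
  have c1 := h.core
  have c2 : Core (c • θ) (X.map θ) := by
    refine ⟨h.finite, fun u hu => Submodule.smul_mem _ c (c1.stable u hu), 2, fun v => ?_⟩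
    rw [pow_two, Module.End.mul_apply]
    exact Submodule.smul_mem _ c ⟨_, Submodule.smul_mem _ c (h.range_le v), rfl⟩
  rw [ftr_eq c1, ftr_eq c2, ← smul_eq_mul, ← map_smul]
  congr 1

theorem ftr_zero : ftr (0 : V →ₗ[K] V) = 0 := by
  have : Sub (⊥ : Submodule K V) (0 : V →ₗ[K] V) :=
    ⟨fun v => by simp, by rw [Submodule.map_bot]; infer_instance⟩
  have := ftr_smul this 0
  simpa using this

theorem ftr_neg {X : Submodule K V} {θ : V →ₗ[K] V} (h : Sub X θ) :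
    ftr (-θ) = - ftr θ := by
  have := ftr_smul h (-1)
  rwa [neg_one_smul, neg_one_mul] at this

theorem Sub.neg {X : Submodule K V} {θ : V →ₗ[K] V} (h : Sub X θ) : Sub X (-θ) := by
  have := h.smul (-1)
  rwa [neg_one_smul] at this

theorem Sub.sub {X : Submodule K V} {θ φ : V →ₗ[K] V} (h : Sub X θ) (h' : Sub X φ) :
    Sub X (θ - φ) := by
  rw [sub_eq_add_neg]
  exact h.add h'.neg

theorem ftr_sub {X : Submodule K V} {θ φ : V →ₗ[K] V} (h : Sub X θ) (h' : Sub X φ) :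
    ftr (θ - φ) = ftr θ - ftr φ := by
  rw [sub_eq_add_neg, ftr_add h h'.neg, ftr_neg h', sub_eq_add_neg]

theorem ftr_eq_zero_of_sq {θ : V →ₗ[K] V} (h : ∀ v, θ (θ v) = 0) : ftr θ = 0 := by
  have c : Core θ ⊥ := by
    refine ⟨inferInstance, fun u hu => ?_, 2, fun v => ?_⟩
    · rw [Submodule.mem_bot] at hu ⊢
      rw [hu, map_zero]
    · rw [pow_two, Module.End.mul_apply, h]
      exact zero_mem _
  rw [ftr_eq c]
  have : θ.restrict c.stable = 0 := Subsingleton.elim _ _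
  rw [this, map_zero]

section Ideals

variable (A : Submodule K V)

/-- `θ A ≺ A` -/
def EE (θ : V →ₗ[K] V) : Prop :=
  ∃ W : Submodule K V, FiniteDimensional K W ∧ ∀ a ∈ A, θ a ∈ A ⊔ W

/-- `θ V ≺ A` -/
def E1 (θ : V →ₗ[K] V) : Prop :=
  ∃ W : Submodule K V, FiniteDimensional K W ∧ ∀ v, θ v ∈ A ⊔ W

/-- `θ A ≺ 0` -/
def E2 (θ : V →ₗ[K] V) : Prop := FiniteDimensional K (A.map θ)

variable {A}

theorem E1.EE {θ : V →ₗ[K] V} (h : E1 A θ) : EE A θ := by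
  obtain ⟨W, hW, h⟩ := h
  exact ⟨W, hW, fun a _ => h a⟩

theorem E2.EE {θ : V →ₗ[K] V} (h : E2 A θ) : EE A θ :=
  ⟨A.map θ, h, fun a ha => Submodule.mem_sup_right ⟨a, ha, rfl⟩⟩

theorem E1.comp_right {θ : V →ₗ[K] V} (h : E1 A θ) (φ : V →ₗ[K] V) : E1 A (θ ∘ₗ φ) := by
  obtain ⟨W, hW, h⟩ := h
  exact ⟨W, hW, fun v => h (φ v)⟩

theorem E1.comp_left {θ φ : V →ₗ[K] V} (h : E1 A θ) (hφ : Residue.EE A φ) :
    E1 A (φ ∘ₗ θ) := by
  obtain ⟨W, hW, h⟩ := h
  obtain ⟨W', hW', h'⟩ := hφ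
  refine ⟨W' ⊔ W.map φ, inferInstance, fun v => ?_⟩
  obtain ⟨a, ha, w, hw, haw⟩ := Submodule.mem_sup.mp (h v)
  change φ (θ v) ∈ _
  rw [← haw, map_add, ← sup_assoc]
  exact Submodule.add_mem_sup (h' a ha) ⟨w, hw, rfl⟩

theorem E2.comp_left {θ : V →ₗ[K] V} (h : E2 A θ) (φ : V →ₗ[K] V) : E2 A (φ ∘ₗ θ) := by
  have : FiniteDimensional K (A.map θ) := h
  change FiniteDimensional K (A.map (φ ∘ₗ θ))
  rw [Submodule.map_comp]
  infer_instance

theorem E2.comp_right {θ φ : V →ₗ[K] V} (h : E2 A θ) (hφ : Residue.EE A φ) :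
    E2 A (θ ∘ₗ φ) := by
  have : FiniteDimensional K (A.map θ) := h
  obtain ⟨W', hW', h'⟩ := hφ
  refine Submodule.finiteDimensional_of_le (S₂ := A.map θ ⊔ W'.map θ) ?_
  rintro _ ⟨a, ha, rfl⟩
  obtain ⟨b, hb, w, hw, hbw⟩ := Submodule.mem_sup.mp (h' a ha)
  change θ (φ a) ∈ _
  rw [← hbw, map_add]
  exact Submodule.add_mem_sup ⟨b, hb, rfl⟩ ⟨w, hw, rfl⟩

theorem E1.add {θ φ : V →ₗ[K] V} (h : E1 A θ) (h' : E1 A φ) : E1 A (θ + φ) := by
  obtain ⟨W, hW, h⟩ := h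
  obtain ⟨W', hW', h'⟩ := h'
  refine ⟨W ⊔ W', inferInstance, fun v => add_mem ?_ ?_⟩
  · exact (sup_le_sup_left le_sup_left _ : A ⊔ W ≤ A ⊔ (W ⊔ W')) (h v)
  · exact (sup_le_sup_left le_sup_right _ : A ⊔ W' ≤ A ⊔ (W ⊔ W')) (h' v)

theorem E1.neg {θ : V →ₗ[K] V} (h : E1 A θ) : E1 A (-θ) := by
  obtain ⟨W, hW, h⟩ := h
  exact ⟨W, hW, fun v => neg_mem (h v)⟩

theorem E1.sub {θ φ : V →ₗ[K] V} (h : E1 A θ) (h' : E1 A φ) : E1 A (θ - φ) := by
  rw [sub_eq_add_neg]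
  exact h.add h'.neg

theorem E2.add {θ φ : V →ₗ[K] V} (h : E2 A θ) (h' : E2 A φ) : E2 A (θ + φ) := by
  have h1 : FiniteDimensional K (A.map θ) := h
  have h2 : FiniteDimensional K (A.map φ) := h'
  refine Submodule.finiteDimensional_of_le (S₂ := A.map θ ⊔ A.map φ) ?_
  rintro _ ⟨a, ha, rfl⟩
  exact Submodule.add_mem_sup ⟨a, ha, rfl⟩ ⟨a, ha, rfl⟩

theorem E2.neg {θ : V →ₗ[K] V} (h : E2 A θ) : E2 A (-θ) := by
  have h1 : FiniteDimensional K (A.map θ) := h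
  refine Submodule.finiteDimensional_of_le (S₂ := A.map θ) ?_
  rintro _ ⟨a, ha, rfl⟩
  exact neg_mem (Submodule.mem_map_of_mem (f := θ) ha)

theorem E2.sub {θ φ : V →ₗ[K] V} (h : E2 A θ) (h' : E2 A φ) : E2 A (θ - φ) := by
  rw [sub_eq_add_neg]
  exact h.add h'.neg

/-- Two elements of `E₀` have a common `X`. -/
theorem exists_sub {θ φ : V →ₗ[K] V} (h1 : E1 A θ) (h2 : E2 A θ) (h1' : E1 A φ)
    (h2' : E2 A φ) : ∃ X : Submodule K V, Sub X θ ∧ Sub X φ := by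
  obtain ⟨W, hW, h1⟩ := h1
  obtain ⟨W', hW', h1'⟩ := h1'
  have h3 : FiniteDimensional K (A.map θ) := h2
  have h4 : FiniteDimensional K (A.map φ) := h2'
  refine ⟨A ⊔ (W ⊔ W'), ⟨fun v =>
    (sup_le_sup_left le_sup_left _ : A ⊔ W ≤ A ⊔ (W ⊔ W')) (h1 v), ?_⟩,
    ⟨fun v => (sup_le_sup_left le_sup_right _ : A ⊔ W' ≤ A ⊔ (W ⊔ W')) (h1' v), ?_⟩⟩
  · rw [Submodule.map_sup]; infer_instance
  · rw [Submodule.map_sup]; infer_instance

theorem fp_of_E {θ : V →ₗ[K] V} (h1 : E1 A θ) (h2 : E2 A θ) : FP θ := by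
  obtain ⟨X, hX, -⟩ := exists_sub h1 h2 h1 h2
  exact hX.FP

theorem ftr_add_E {θ φ : V →ₗ[K] V} (h1 : E1 A θ) (h2 : E2 A θ) (h1' : E1 A φ)
    (h2' : E2 A φ) : ftr (θ + φ) = ftr θ + ftr φ := by
  obtain ⟨X, hX, hX'⟩ := exists_sub h1 h2 h1' h2'
  exact ftr_add hX hX'

theorem ftr_sub_E {θ φ : V →ₗ[K] V} (h1 : E1 A θ) (h2 : E2 A θ) (h1' : E1 A φ)
    (h2' : E2 A φ) : ftr (θ - φ) = ftr θ - ftr φ := by
  obtain ⟨X, hX, hX'⟩ := exists_sub h1 h2 h1' h2'
  exact ftr_sub hX hX'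

/-- commutator -/
def comm (θ φ : V →ₗ[K] V) : V →ₗ[K] V := θ ∘ₗ φ - φ ∘ₗ θ

/-- the commutator of an element of `E₀` and an element of `E` has trace zero -/
theorem ftr_comm_E0 {θ φ : V →ₗ[K] V} (h1 : E1 A θ) (h2 : E2 A θ) (h : EE A φ) :
    E1 A (comm θ φ) ∧ E2 A (comm θ φ) ∧ ftr (comm θ φ) = 0 := by
  have a1 : E1 A (θ ∘ₗ φ) := h1.comp_right φ
  have a2 : E2 A (θ ∘ₗ φ) := h2.comp_right h
  have b1 : E1 A (φ ∘ₗ θ) := h1.comp_left h
  have b2 : E2 A (φ ∘ₗ θ) := h2.comp_left φ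
  refine ⟨a1.sub b1, a2.sub b2, ?_⟩
  rw [comm, ftr_sub_E a1 a2 b1 b2, (ftr_comp_comm (fp_of_E a1 a2)).2, sub_self]

/-- the commutator of an element of `E₁` and an element of `E₂` has trace zero -/
theorem ftr_comm_E12 {θ φ : V →ₗ[K] V} (h1 : E1 A θ) (h2 : E2 A φ) :
    E1 A (comm θ φ) ∧ E2 A (comm θ φ) ∧ ftr (comm θ φ) = 0 := by
  have a1 : E1 A (θ ∘ₗ φ) := h1.comp_right φ
  have a2 : E2 A (θ ∘ₗ φ) := h2.comp_left θ
  have b1 : E1 A (φ ∘ₗ θ) := h1.comp_left h2.EE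
  have b2 : E2 A (φ ∘ₗ θ) := h2.comp_right h1.EE
  refine ⟨a1.sub b1, a2.sub b2, ?_⟩
  rw [comm, ftr_sub_E a1 a2 b1 b2, (ftr_comp_comm (fp_of_E a1 a2)).2, sub_self]

end Ideals

end Fermat.Agent.Residue
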