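import Fermat.Agent.Residue.Local
import Fermat.Agent.Residue.Stable
import Fermat.Agent.RR.Weil

/-!
# The residue theorem
-/

set_option autoImplicit false

open AlgebraicCurve WithZero Module KaehlerDifferential
open Fermat.Agent.RR
open scoped IntermediateField

namespace Fermat.Agent.Residue

variable {K F : Type*} [Field K] [Field F] [Algebra K F]

section Basic

/-- `F` acting on repartitions -/
noncomputable def mRep : F →ₐ[K] Module.End K ↥(repartitions K F) :=
  Algebra.lsmul K K ↥(repartitions K F)

theorem mRep_apply (f : F) (α : ↥(repartitions K F)) (v : Place K F) :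
    (mRep f α : Place K F → F) v = f * (α : Place K F → F) v := rfl

/-- the component at `v` -/
noncomputable def comp (v : Place K F) : ↥(repartitions K F) →ₗ[K] F where
  toFun α := (α : Place K F → F) v
  map_add' _ _ := rfl
  map_smul' _ _ := rfl

theorem comp_apply (v : Place K F) (α : ↥(repartitions K F)) :
    comp v α = (α : Place K F → F) v := rfl

theorem rep_ext {α β : ↥(repartitions K F)} (h : ∀ v, comp v α = comp v β) : α = β :=
  Subtype.ext (funext h)

theorem comp_mRep (v : Place K F) (f : F) (α : ↥(repartitions K F)) :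
    comp v (mRep f α) = f * comp v α := rfl

/-- the inclusion at `v` -/
noncomputable def incl (v : Place K F) : F →ₗ[K] ↥(repartitions K F) where
  toFun f := singleRep v f
  map_add' f g := by
    refine rep_ext fun w => ?_
    rw [map_add, comp_apply, comp_apply, comp_apply]
    by_cases h : w = v
    · subst h; rw [singleRep_same, singleRep_same, singleRep_same]
    · rw [singleRep_ne h, singleRep_ne h, singleRep_ne h, add_zero]
  map_smul' c f := by
    refine rep_ext fun w => ?_
    rw [RingHom.id_apply, map_smul, comp_apply, comp_apply]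
    by_cases h : w = v
    · subst h; rw [singleRep_same, singleRep_same]
    · rw [singleRep_ne h, singleRep_ne h, smul_zero]

theorem comp_incl_same (v : Place K F) (f : F) : comp v (incl v f) = f := singleRep_same v f

theorem comp_incl_ne {v w : Place K F} (h : w ≠ v) (f : F) : comp w (incl v f) = 0 :=
  singleRep_ne h f

/-- a componentwise endomorphism with values in `A(0)` -/
noncomputable def pmap (π : ∀ _ : Place K F, F →ₗ[K] F) (h : ∀ v x, π v x ∈ ball v 0) :
    ↥(repartitions K F) →ₗ[K] ↥(repartitions K F) where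
  toFun α := ⟨fun v => π v (comp v α), mem_repartitions_of_forall_le_exp 0 _ fun v => h v _⟩
  map_add' α β := rep_ext fun v => by
    rw [map_add (comp v)]
    change π v (comp v (α + β)) = π v (comp v α) + π v (comp v β)
    rw [map_add, map_add]
  map_smul' c α := rep_ext fun v => by
    rw [RingHom.id_apply, map_smul (comp v)]
    change π v (comp v (c • α)) = c • π v (comp v α)
    rw [map_smul, map_smul]

theorem comp_pmap (π : ∀ _ : Place K F, F →ₗ[K] F) (h : ∀ v x, π v x ∈ ball v 0)
    (v : Place K F) (α : ↥(repartitions K F)) : comp v (pmap π h α) = π v (comp v α) := rfl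

theorem mem_rep_zero {α : ↥(repartitions K F)} :
    α ∈ repartitionsOf (0 : Divisor K F) ↔ ∀ v, comp v α ∈ ball v 0 := Iff.rfl

end Basic

section Local

variable (v : Place K F) [hv : v.FiniteResidue]

omit hv in
/-- the square of the local operator vanishes when `f` and `g` are integral -/
theorem comm_sq_zero {π : F →ₗ[K] F} (hπ : Proj (ball v 0) π) {f g : F} (hf : f ∈ ball v 0)
    (hg : g ∈ ball v 0) (x : F) :
    comm (π ∘ₗ Algebra.lmul K F f) (Algebra.lmul K F g)
      (comm (π ∘ₗ Algebra.lmul K F f) (Algebra.lmul K F g) x) = 0 := by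
  set y := (comm (π ∘ₗ Algebra.lmul K F f) (Algebra.lmul K F g)) x with hy
  have hy' : y ∈ ball v 0 := by
    have : y = π (f * (g * x)) - g * π (f * x) := rfl
    rw [this]
    exact sub_mem (hπ.mem _) (mul_mem_ball_zero v hg (hπ.mem _))
  change π (f * (g * y)) - g * π (f * y) = 0
  rw [hπ.eq _ (mul_mem_ball_zero v hf (mul_mem_ball_zero v hg hy')),
    hπ.eq _ (mul_mem_ball_zero v hf hy')]
  ring

end Local

section EE

variable [HasPrincipalDivisors K F] [hfr : ∀ v : Place K F, v.FiniteResidue]

omit [HasPrincipalDivisors K F] in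
theorem repartitionsOf_le (D : Divisor K F) :
    ∃ W : Submodule K ↥(repartitions K F), FiniteDimensional K W ∧
      repartitionsOf D ≤ repartitionsOf 0 ⊔ W := by
  have key : ∀ E : Divisor K F, 0 ≤ E → ∃ W : Submodule K ↥(repartitions K F),
      FiniteDimensional K W ∧ repartitionsOf E ≤ repartitionsOf 0 ⊔ W := by
    refine ge_induction (0 : Divisor K F) ⟨⊥, inferInstance, le_sup_left⟩ ?_
    rintro E v _ ⟨W, hW, hE⟩
    have := (hfr v).finite
    obtain ⟨W', hW', h⟩ := exists_fd_of_jump (jump E v) (jump_surjective E v)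
      (fun a ha => (jump_eq_zero_iff E v a).mp ha)
    refine ⟨W ⊔ W', inferInstance, h.trans ?_⟩
    rw [← sup_assoc]
    exact sup_le_sup_right hE W'
  obtain ⟨W, hW, h⟩ := key (D ⊔ 0) le_sup_right
  exact ⟨W, hW, (repartitionsOf_mono le_sup_left).trans h⟩

theorem ee_rep (f : F) : EE (repartitionsOf (0 : Divisor K F)) (mRep (K := K) f) := by
  obtain ⟨W, hW, h⟩ := repartitionsOf_le (pole f : Divisor K F)
  refine ⟨W, hW, fun a ha => h ?_⟩
  rw [mem_repartitionsOf]
  intro v
  rw [mRep_apply, mem_ball, map_mul]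
  have h1 := adicValuation_le_pole (K := K) f v
  have h2 : v.adicValuation ((a : Place K F → F) v) ≤ 1 := by
    have := mem_repartitionsOf.mp ha v
    rwa [mem_ball, Finsupp.zero_apply, exp_zero] at this
  exact (mul_le_of_le_one_right' h2).trans h1

/-- the global residue -/
noncomputable def resGlob : Ω[F⁄K] →ₗ[K] K := Res (ee_rep (K := K) (F := F))

theorem resGlob_smul_D {T : Finset (Place K F)} {f g : F} (hf : ∀ v ∉ T, f ∈ ball v 0)
    (hg : ∀ v ∉ T, g ∈ ball v 0) :
    resGlob (K := K) (f • D K F g) = ∑ v ∈ T, resAt v (f • D K F g) := by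
  classical
  choose π hπ using fun v : Place K F => exists_proj (ball v 0 : Submodule K F)
  have hP : Proj (repartitionsOf (0 : Divisor K F)) (pmap π fun v x => (hπ v).mem x) := by
    refine ⟨fun α => mem_rep_zero.mpr fun v => (hπ v).mem _, fun α hα => rep_ext fun v => ?_⟩
    rw [comp_pmap]
    exact (hπ v).eq _ (mem_rep_zero.mp hα v)
  rw [resGlob, Res_smul_D _ hP]
  set θ := comm (pmap π (fun v x => (hπ v).mem x) ∘ₗ mRep f) (mRep g) with hθ
  set θv : ∀ _ : Place K F, F →ₗ[K] F := fun v =>
    comm (π v ∘ₗ Algebra.lmul K F f) (Algebra.lmul K F g) with hθv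
  have hcomp : ∀ v α, comp v (θ α) = θv v (comp v α) := fun v α => rfl
  have hθ1 : E1 (repartitionsOf (0 : Divisor K F)) θ := pair_E1 ee_rep hP f g
  have hθ2 : E2 (repartitionsOf (0 : Divisor K F)) θ := pair_E2 ee_rep hP f g
  have hee : ∀ v : Place K F, EE (repartitionsOf (0 : Divisor K F)) (incl v ∘ₗ comp v) := by
    intro v
    refine ⟨⊥, inferInstance, fun α hα => Submodule.mem_sup_left ?_⟩
    rw [mem_rep_zero] at hα ⊢
    intro w
    change comp w (incl v (comp v α)) ∈ _
    by_cases h : w = v
    · subst h; rw [comp_incl_same]; exact hα w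
    · rw [comp_incl_ne h]; exact zero_mem _
  obtain ⟨s1, s2, s3⟩ := ftr_sum_E T (fun v => (incl v ∘ₗ comp v) ∘ₗ θ)
    (fun v _ => hθ1.comp_left (hee v)) (fun v _ => hθ2.comp_left _)
  set σ := ∑ v ∈ T, (incl v ∘ₗ comp v) ∘ₗ θ with hσ
  have hσc : ∀ w α, comp w (σ α) = if w ∈ T then comp w (θ α) else 0 := by
    intro w α
    rw [hσ, LinearMap.sum_apply, map_sum]
    by_cases hw : w ∈ T
    · rw [if_pos hw, Finset.sum_eq_single w]
      · change comp w (incl w (comp w (θ α))) = _
        rw [comp_incl_same]
      · intro v _ hvw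
        change comp w (incl v (comp v (θ α))) = _
        rw [comp_incl_ne hvw.symm]
      · exact fun h => absurd hw h
    · rw [if_neg hw]
      refine Finset.sum_eq_zero fun v hv => ?_
      change comp w (incl v (comp v (θ α))) = _
      rw [comp_incl_ne]
      rintro rfl
      exact hw hv
  have hrest : ftr (θ - σ) = 0 := by
    refine ftr_eq_zero_of_sq fun α => rep_ext fun w => ?_
    rw [map_zero]
    have h1 : ∀ β, comp w ((θ - σ) β) = if w ∈ T then 0 else θv w (comp w β) := by
      intro β
      rw [LinearMap.sub_apply, map_sub, hσc]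
      by_cases hw : w ∈ T
      · rw [if_pos hw, if_pos hw, sub_self]
      · rw [if_neg hw, if_neg hw, sub_zero, hcomp]
    rw [h1, h1]
    by_cases hw : w ∈ T
    · rw [if_pos hw]
    · rw [if_neg hw, if_neg hw]
      exact comm_sq_zero w (hπ w) (hf w hw) (hg w hw) _
  have hsplit : ftr θ = ftr σ := by
    have h1 : θ = (θ - σ) + σ := by abel
    rw [h1, ftr_add_E (hθ1.sub s1) (hθ2.sub s2) s1 s2, hrest, zero_add]
  rw [hsplit, s3]
  refine Finset.sum_congr rfl fun v hv => ?_
  rw [resAt_smul_D v (hπ v)]
  have h1 : (incl v ∘ₗ comp v) ∘ₗ θ = incl v ∘ₗ (θv v ∘ₗ comp v) := by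
    ext α
    rfl
  have hfp : FP (incl v ∘ₗ (θv v ∘ₗ comp v)) := by
    rw [← h1]
    exact fp_of_E (hθ1.comp_left (hee v)) (hθ2.comp_left _)
  rw [h1, ← (ftr_comp_comm hfp).2]
  congr 1
  ext x
  change θv v (comp v (incl v x)) = θv v x
  rw [comp_incl_same]

end EE

section ResidueTheorem

variable [HasPrincipalDivisors K F] [hne : Nonempty (Place K F)]
  [hfr : ∀ v : Place K F, v.FiniteResidue]

theorem resGlob_eq_zero (x : F) (hx : Transcendental K x) [FiniteDimensional K⟮x⟯ F] (f g : F) :
    resGlob (K := K) (f • D K F g) = 0 := by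
  have hfin : FiniteDimensional K (H1 (0 : Divisor K F)) := finiteDimensional_H1 x hx 0
  obtain ⟨W, hW⟩ := exists_isCompl (repartitionsOf (0 : Divisor K F) ⊔ principalRepartitions K F)
  have hWfin : FiniteDimensional K W :=
    Module.Finite.equiv (Submodule.quotientEquivOfIsCompl _ _ hW)
  have hAB : FiniteDimensional K ↥(repartitionsOf (0 : Divisor K F) ⊓ principalRepartitions K F) := by
    have h1 : FiniteDimensional K (riemannRochSpace (0 : Divisor K F)) :=
      finiteDimensional_riemannRochSpace 0
    have h2 : FiniteDimensional K (principalRepartitions K F ⊓ repartitionsOf (0 : Divisor K F) :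
      Submodule K ↥(repartitions K F)) := Module.Finite.equiv (rrEquiv 0)
    rwa [inf_comm]
  refine Res_eq_zero_of_stable (ee_rep (K := K) (F := F)) (B := principalRepartitions K F)
    ?_ hAB hWfin ?_ f g
  · intro f b hb
    exact smul_mem_principal f hb
  · intro α
    rw [hW.sup_eq_top]
    exact Submodule.mem_top

/-- The residue theorem for `f dg`. -/
theorem sum_resAt_smul_D (x : F) (hx : Transcendental K x) [FiniteDimensional K⟮x⟯ F]
    {T : Finset (Place K F)} {f g : F} (hf : ∀ v ∉ T, f ∈ ball v 0)
    (hg : ∀ v ∉ T, g ∈ ball v 0) :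
    ∑ v ∈ T, resAt v (f • D K F g) = 0 := by
  rw [← resGlob_smul_D hf hg, resGlob_eq_zero x hx]

end ResidueTheorem

end Fermat.Agent.Residue
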