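import Fermat.Agent.Residue.Pairing
import Fermat.Agent.RR.Euler

/-!
# The local residue at a place
-/

set_option autoImplicit false

open AlgebraicCurve WithZero Module KaehlerDifferential
open Fermat.Agent.RR

namespace Fermat.Agent.Residue

section Abstract

variable {K V W : Type*} [Field K] [AddCommGroup V] [Module K V] [AddCommGroup W] [Module K W]

theorem exists_fd_of_jump {A A' : Submodule K V} (j : A' →ₗ[K] W)
    (hj : Function.Surjective j) (hker : ∀ a : A', j a = 0 → (a : V) ∈ A)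
    [FiniteDimensional K W] : ∃ U : Submodule K V, FiniteDimensional K U ∧ A' ≤ A ⊔ U := by
  obtain ⟨s, hs⟩ := LinearMap.exists_rightInverse_of_surjective j (LinearMap.range_eq_top.mpr hj)
  refine ⟨LinearMap.range (A'.subtype ∘ₗ s), inferInstance, fun x hx => ?_⟩
  have h1 : j (⟨x, hx⟩ - s (j ⟨x, hx⟩)) = 0 := by
    have := LinearMap.congr_fun hs (j ⟨x, hx⟩)
    rw [LinearMap.comp_apply, LinearMap.id_apply] at this
    rw [map_sub, this, sub_self]
  have h2 := hker _ h1
  refine Submodule.mem_sup.mpr ⟨_, h2, ((s (j ⟨x, hx⟩) : A') : V), ⟨_, rfl⟩, ?_⟩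
  simp

end Abstract

variable {K F : Type*} [Field K] [Field F] [Algebra K F]

theorem ball_mono (v : Place K F) {m n : ℤ} (h : m ≤ n) : ball v m ≤ ball v n := fun _ hx =>
  (mem_ball.mp hx).trans (exp_le_exp.mpr h)

section

variable (v : Place K F) [hv : v.FiniteResidue]

theorem ball_succ_le (n : ℤ) :
    ∃ W : Submodule K F, FiniteDimensional K W ∧ ball v (n + 1) ≤ ball v n ⊔ W := by
  have := hv.finite
  refine exists_fd_of_jump (lead v (n + 1)) (lead_surjective v (n + 1)) fun a ha => ?_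
  have := (lead_eq_zero_iff v (n + 1) a).mp ha
  rwa [add_sub_cancel_right] at this

theorem ball_le (n : ℤ) :
    ∃ W : Submodule K F, FiniteDimensional K W ∧ ball v n ≤ ball v 0 ⊔ W := by
  have key : ∀ n : ℕ, ∃ W : Submodule K F, FiniteDimensional K W ∧ ball v (n : ℤ) ≤ ball v 0 ⊔ W := by
    intro n
    induction n with
    | zero => exact ⟨⊥, inferInstance, by simp⟩
    | succ n ih =>
      obtain ⟨W, hW, ih⟩ := ih
      obtain ⟨W', hW', h⟩ := ball_succ_le v (n : ℤ)
      refine ⟨W ⊔ W', inferInstance, ?_⟩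
      rw [Nat.cast_succ, ← sup_assoc]
      exact h.trans (sup_le_sup_right ih W')
  obtain ⟨W, hW, h⟩ := key n.toNat
  exact ⟨W, hW, (ball_mono v (Int.self_le_toNat n)).trans h⟩

/-- The Tate condition for multiplication operators with respect to the valuation ring. -/
theorem ee_ball (f : F) : EE (ball v 0) (Algebra.lmul K F f) := by
  obtain ⟨n, hn⟩ : ∃ n : ℤ, v.adicValuation f ≤ exp n := by
    rcases eq_or_ne f 0 with rfl | hf
    · exact ⟨0, by simp⟩
    · exact ⟨_, (v.adicValuation_eq_exp_neg_ord hf).le⟩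
  obtain ⟨W, hW, h⟩ := ball_le v n
  refine ⟨W, hW, fun a ha => h ?_⟩
  change v.adicValuation (f * a) ≤ exp n
  rw [map_mul]
  have ha' : v.adicValuation a ≤ 1 := by simpa using mem_ball.mp ha
  exact (mul_le_of_le_one_right' ha').trans hn

/-- The residue at a place. -/
noncomputable def resAt : Ω[F⁄K] →ₗ[K] K := Res (ee_ball v)

theorem resAt_smul_D {π : F →ₗ[K] F} (hπ : Proj (ball v 0) π) (f g : F) :
    resAt v (f • D K F g) = ftr (comm (π ∘ₗ Algebra.lmul K F f) (Algebra.lmul K F g)) :=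
  Res_smul_D _ hπ f g

omit hv in
theorem mul_mem_ball_zero {a f : F} (hf : f ∈ ball v 0) (ha : a ∈ ball v 0) :
    f * a ∈ ball v 0 := by
  rw [mem_ball, exp_zero] at *
  rw [map_mul]
  exact mul_le_one' hf ha

omit hv in
theorem one_mem_ball : (1 : F) ∈ ball v 0 := by
  rw [mem_ball, map_one, exp_zero]

/-- (L1) -/
theorem resAt_eq_zero {f g : F} (hf : f ∈ ball v 0) (hg : g ∈ ball v 0) :
    resAt v (f • D K F g) = 0 := by
  obtain ⟨π, hπ⟩ := exists_proj (ball v 0 : Submodule K F)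
  rw [resAt_smul_D v hπ]
  refine ftr_eq_zero_of_sq fun x => ?_
  set y := (comm (π ∘ₗ Algebra.lmul K F f) (Algebra.lmul K F g)) x with hy
  have hy' : y ∈ ball v 0 := by
    have : y = π (f * (g * x)) - g * π (f * x) := rfl
    rw [this]
    exact sub_mem (hπ.mem _) (mul_mem_ball_zero v hg (hπ.mem _))
  change π (f * (g * y)) - g * π (f * y) = 0
  rw [hπ.eq _ (mul_mem_ball_zero v hf (mul_mem_ball_zero v hg hy')),
    hπ.eq _ (mul_mem_ball_zero v hf hy')]
  ring

omit hv in
theorem mem_ball_neg_one_iff {x t : F} (ht : v.adicValuation t = exp (-1 : ℤ)) :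
    x ∈ ball v (-1) ↔ ∃ y ∈ ball v 0, x = t * y := by
  have ht0 : t ≠ 0 := by
    rintro rfl
    rw [map_zero] at ht
    exact exp_ne_zero ht.symm
  constructor
  · intro hx
    refine ⟨t⁻¹ * x, ?_, by rw [mul_inv_cancel_left₀ ht0]⟩
    rw [mem_ball, map_mul, map_inv₀, ht, ← exp_neg]
    calc exp (- -1) * v.adicValuation x ≤ exp (- -1 : ℤ) * exp (-1 : ℤ) := by
          gcongr
          exact mem_ball.mp hx
      _ = exp 0 := by rw [← exp_add]; simp
  · rintro ⟨y, hy, rfl⟩
    rw [mem_ball, map_mul, ht]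
    rw [mem_ball, exp_zero] at hy
    exact mul_le_of_le_one_right' hy

/-- (L2): `Res (t⁻¹ dt) = deg v` for a uniformizer `t`. -/
theorem resAt_inv_smul_D {t : F} (ht : v.adicValuation t = exp (-1 : ℤ)) :
    resAt v (t⁻¹ • D K F t) = (v.deg : K) := by
  have ht0 : t ≠ 0 := by
    rintro rfl
    rw [map_zero] at ht
    exact exp_ne_zero ht.symm
  have htmem : t ∈ ball v 0 := by
    rw [mem_ball, ht]
    exact exp_le_exp.mpr (by norm_num)
  obtain ⟨π, hπ⟩ := exists_proj (ball v 0 : Submodule K F)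
  rw [resAt_smul_D v hπ]
  set θ := comm (π ∘ₗ Algebra.lmul K F t⁻¹) (Algebra.lmul K F t) with hθ
  have hθx : ∀ x, θ x = π x - t * π (t⁻¹ * x) := by
    intro x
    change π (t⁻¹ * (t * x)) - t * π (t⁻¹ * x) = _
    rw [inv_mul_cancel_left₀ ht0]
  have hker : ∀ x ∈ ball v 0, (θ x = 0 ↔ x ∈ ball v (-1)) := by
    intro x hx
    rw [mem_ball_neg_one_iff v ht, hθx, hπ.eq x hx]
    constructor
    · intro h
      exact ⟨π (t⁻¹ * x), hπ.mem _, sub_eq_zero.mp h⟩
    · rintro ⟨y, hy, rfl⟩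
      rw [inv_mul_cancel_left₀ ht0, hπ.eq y hy, sub_self]
  have hsub : Sub (ball v 0) θ := by
    refine ⟨fun x => ?_, ?_⟩
    · rw [hθx]
      exact sub_mem (hπ.mem _) (mul_mem_ball_zero v htmem (hπ.mem _))
    · exact pair_E2 (ee_ball v) hπ t⁻¹ t
  rw [ftr_eq hsub.core]
  have hid : θ.restrict hsub.core.stable = LinearMap.id := by
    refine LinearMap.ext ?_
    rintro ⟨_, ⟨a, ha, rfl⟩⟩
    refine Subtype.ext ?_
    change θ (θ a) = θ a
    have h1 : θ a = a - t * π (t⁻¹ * a) := by rw [hθx, hπ.eq a ha]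
    have h2 : θ (t * π (t⁻¹ * a)) = 0 := by
      rw [hker _ (mul_mem_ball_zero v htmem (hπ.mem _)), mem_ball_neg_one_iff v ht]
      exact ⟨_, hπ.mem _, rfl⟩
    conv_lhs => rw [h1, map_sub, h2, sub_zero]
  have := hsub.finite
  rw [hid, LinearMap.trace_id]
  congr 1
  have h1 : (ball v 0).map θ = LinearMap.range (θ.domRestrict (ball v 0)) := by
    rw [LinearMap.range_domRestrict]
  have h2 : LinearMap.ker (θ.domRestrict (ball v 0)) = LinearMap.ker (lead v 0) := by
    ext x
    rw [LinearMap.mem_ker, LinearMap.mem_ker, lead_eq_zero_iff, zero_sub]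
    exact hker x x.2
  rw [h1, (θ.domRestrict (ball v 0)).quotKerEquivRange.finrank_eq.symm, h2,
    ((lead v 0).quotKerEquivOfSurjective (lead_surjective v 0)).finrank_eq]
  rfl

end

end Fermat.Agent.Residue
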