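import Fermat.Agent.Residue.FTrace
import Mathlib.RingTheory.Kaehler.Basic

/-!
# Tate's abstract residue pairing
-/

set_option autoImplicit false

open Module KaehlerDifferential

namespace Fermat.Agent.Residue

variable {K F V : Type*} [Field K] [Field F] [Algebra K F] [AddCommGroup V] [Module K V]

section Proj

variable {A : Submodule K V} {π : V →ₗ[K] V}

/-- `π` is a projection onto `A` -/
structure Proj (A : Submodule K V) (π : V →ₗ[K] V) : Prop where
  mem : ∀ v, π v ∈ A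
  eq : ∀ a ∈ A, π a = a

theorem exists_proj (A : Submodule K V) : ∃ π : V →ₗ[K] V, Proj A π := by
  obtain ⟨f, hf⟩ := LinearMap.exists_leftInverse_of_injective A.subtype A.ker_subtype
  refine ⟨A.subtype ∘ₗ f, ⟨fun v => (f v).2, fun a ha => ?_⟩⟩
  have := LinearMap.congr_fun hf ⟨a, ha⟩
  exact congrArg Subtype.val this

theorem Proj.E1 (h : Proj A π) (θ : V →ₗ[K] V) : E1 A (π ∘ₗ θ) :=
  ⟨⊥, inferInstance, fun _ => Submodule.mem_sup_left (h.mem _)⟩

theorem Proj.sub_E2 (h : Proj A π) {θ : V →ₗ[K] V} (hθ : EE A θ) : E2 A (θ - π ∘ₗ θ) := by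
  obtain ⟨W, hW, hθ⟩ := hθ
  refine Submodule.finiteDimensional_of_le (S₂ := W.map (LinearMap.id - π)) ?_
  rintro _ ⟨a, ha, rfl⟩
  obtain ⟨b, hb, w, hw, hbw⟩ := Submodule.mem_sup.mp (hθ a ha)
  refine ⟨w, hw, ?_⟩
  change w - π w = θ a - π (θ a)
  rw [← hbw, map_add, h.eq b hb]
  abel

theorem Proj.comm_E2 (h : Proj A π) {θ : V →ₗ[K] V} (hθ : EE A θ) : E2 A (comm π θ) := by
  have h1 : FiniteDimensional K (A.map (-(θ - π ∘ₗ θ))) := (h.sub_E2 hθ).neg
  refine Submodule.finiteDimensional_of_le (S₂ := A.map (-(θ - π ∘ₗ θ))) ?_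
  rintro _ ⟨a, ha, rfl⟩
  refine ⟨a, ha, ?_⟩
  change -(θ a - π (θ a)) = π (θ a) - θ (π a)
  rw [h.eq a ha]
  abel

end Proj

section comm

theorem comm_add_left (θ θ' φ : V →ₗ[K] V) : comm (θ + θ') φ = comm θ φ + comm θ' φ := by
  simp only [comm, LinearMap.add_comp, LinearMap.comp_add]
  abel

theorem comm_add_right (θ φ φ' : V →ₗ[K] V) : comm θ (φ + φ') = comm θ φ + comm θ φ' := by
  simp only [comm, LinearMap.add_comp, LinearMap.comp_add]
  abel

theorem comm_smul_left (c : K) (θ φ : V →ₗ[K] V) : comm (c • θ) φ = c • comm θ φ := by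
  simp only [comm, LinearMap.smul_comp, LinearMap.comp_smul, smul_sub]

theorem comm_smul_right (c : K) (θ φ : V →ₗ[K] V) : comm θ (c • φ) = c • comm θ φ := by
  simp only [comm, LinearMap.smul_comp, LinearMap.comp_smul, smul_sub]

variable {A : Submodule K V}

theorem ftr_indep {f f' g g' : V →ₗ[K] V} (h1 : E1 A f) (h1' : E1 A f') (hf : E2 A (f - f'))
    (hg : EE A g) (hg' : E2 A (g - g')) (hc : E2 A (comm f g)) :
    E2 A (comm f' g') ∧ ftr (comm f' g') = ftr (comm f g) := by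
  have hc1 : E1 A (comm f g) := (h1.comp_right g).sub (h1.comp_left hg)
  obtain ⟨y1, y2, y3⟩ := ftr_comm_E0 (h1.sub h1') hf hg
  obtain ⟨z1, z2, z3⟩ := ftr_comm_E12 h1' hg'
  have key : comm f' g' = comm f g - comm (f - f') g - comm f' (g - g') := by
    simp only [comm, LinearMap.sub_comp, LinearMap.comp_sub]
    abel
  have a1 := hc1.sub y1
  have a2 := hc.sub y2
  rw [key]
  refine ⟨a2.sub z2, ?_⟩
  rw [ftr_sub_E a1 a2 z1 z2, ftr_sub_E hc1 hc y1 y2, y3, z3, sub_zero, sub_zero]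

theorem ftr_smul_E {θ : V →ₗ[K] V} (h1 : E1 A θ) (h2 : E2 A θ) (c : K) :
    ftr (c • θ) = c * ftr θ := by
  obtain ⟨X, hX, -⟩ := exists_sub h1 h2 h1 h2
  exact ftr_smul hX c

end comm

section Pairing

variable {A : Submodule K V} {π : V →ₗ[K] V} {m : F →ₐ[K] Module.End K V}

theorem m_comm (m : F →ₐ[K] Module.End K V) (f g : F) (v : V) : m f (m g v) = m g (m f v) := by
  rw [← Module.End.mul_apply, ← Module.End.mul_apply, ← map_mul, ← map_mul, mul_comm]

theorem comm_proj (π : V →ₗ[K] V) (m : F →ₐ[K] Module.End K V) (f g : F) :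
    comm (π ∘ₗ m f) (m g) = comm π (m g) ∘ₗ m f := by
  ext v
  change π (m f (m g v)) - m g (π (m f v)) = π (m g (m f v)) - m g (π (m f v))
  rw [m_comm]

theorem pair_E1 (hA : ∀ f, EE A (m f)) (hπ : Proj A π) (f g : F) :
    E1 A (comm (π ∘ₗ m f) (m g)) :=
  ((hπ.E1 _).comp_right _).sub ((hπ.E1 _).comp_left (hA g))

theorem pair_E2 (hA : ∀ f, EE A (m f)) (hπ : Proj A π) (f g : F) :
    E2 A (comm (π ∘ₗ m f) (m g)) := by
  rw [comm_proj]
  exact (hπ.comm_E2 (hA g)).comp_right (hA f)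

/-- the pairing `(f, g) ↦ Res (f dg)` -/
noncomputable def rp (π : V →ₗ[K] V) (m : F →ₐ[K] Module.End K V) (f g : F) : K :=
  ftr (comm (π ∘ₗ m f) (m g))

theorem rp_add_left (hA : ∀ f, EE A (m f)) (hπ : Proj A π) (f f' g : F) :
    rp π m (f + f') g = rp π m f g + rp π m f' g := by
  rw [rp, rp, rp, map_add]
  have : π ∘ₗ (m f + m f') = π ∘ₗ m f + π ∘ₗ m f' := LinearMap.comp_add _ _ _
  rw [this, comm_add_left,
    ftr_add_E (pair_E1 hA hπ f g) (pair_E2 hA hπ f g) (pair_E1 hA hπ f' g) (pair_E2 hA hπ f' g)]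

theorem rp_add_right (hA : ∀ f, EE A (m f)) (hπ : Proj A π) (f g g' : F) :
    rp π m f (g + g') = rp π m f g + rp π m f g' := by
  rw [rp, rp, rp, map_add, comm_add_right,
    ftr_add_E (pair_E1 hA hπ f g) (pair_E2 hA hπ f g) (pair_E1 hA hπ f g') (pair_E2 hA hπ f g')]

theorem rp_smul_left (hA : ∀ f, EE A (m f)) (hπ : Proj A π) (c : K) (f g : F) :
    rp π m (c • f) g = c * rp π m f g := by
  rw [rp, rp, map_smul]
  have : π ∘ₗ (c • m f) = c • (π ∘ₗ m f) := LinearMap.comp_smul _ _ _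
  rw [this, comm_smul_left, ftr_smul_E (pair_E1 hA hπ f g) (pair_E2 hA hπ f g)]

theorem rp_smul_right (hA : ∀ f, EE A (m f)) (hπ : Proj A π) (c : K) (f g : F) :
    rp π m f (c • g) = c * rp π m f g := by
  rw [rp, rp, map_smul, comm_smul_right, ftr_smul_E (pair_E1 hA hπ f g) (pair_E2 hA hπ f g)]

theorem rp_mul (hA : ∀ f, EE A (m f)) (hπ : Proj A π) (f g h : F) :
    rp π m f (g * h) = rp π m (f * g) h + rp π m (f * h) g := by
  have e1 : comm (π ∘ₗ m f) (m (g * h)) =
      comm (π ∘ₗ m f) (m g) ∘ₗ m h + m g ∘ₗ comm (π ∘ₗ m f) (m h) := by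
    ext v
    change π (m f (m (g * h) v)) - m (g * h) (π (m f v)) =
      (π (m f (m g (m h v))) - m g (π (m f (m h v)))) +
        m g (π (m f (m h v)) - m h (π (m f v)))
    rw [map_mul]
    simp only [Module.End.mul_apply, map_sub]
    abel
  have e2 : comm (π ∘ₗ m (f * g)) (m h) = comm (π ∘ₗ m f) (m h) ∘ₗ m g := by
    ext v
    change π (m (f * g) (m h v)) - m h (π (m (f * g) v)) =
      π (m f (m h (m g v))) - m h (π (m f (m g v)))
    rw [map_mul]
    simp only [Module.End.mul_apply]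
    rw [m_comm m g h]
  have e3 : comm (π ∘ₗ m (f * h)) (m g) = comm (π ∘ₗ m f) (m g) ∘ₗ m h := by
    ext v
    change π (m (f * h) (m g v)) - m g (π (m (f * h) v)) =
      π (m f (m g (m h v))) - m g (π (m f (m h v)))
    rw [map_mul]
    simp only [Module.End.mul_apply]
    rw [m_comm m h g]
  have a1 := (pair_E1 hA hπ f g).comp_right (m h)
  have a2 := (pair_E2 hA hπ f g).comp_right (hA h)
  have b1 := (pair_E1 hA hπ f h).comp_left (hA g)
  have b2 := (pair_E2 hA hπ f h).comp_left (m g)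
  rw [rp, rp, rp, e1, e2, e3, ftr_add_E a1 a2 b1 b2, add_comm]
  congr 1
  exact ((ftr_comp_comm (fp_of_E b1 b2)).2).symm

variable (K F) in
/-- type synonym for the dual with the `F`-action on the source -/
def Dl : Type _ := F →ₗ[K] K

noncomputable instance : AddCommGroup (Dl K F) := inferInstanceAs (AddCommGroup (F →ₗ[K] K))

noncomputable instance : Module K (Dl K F) := inferInstanceAs (Module K (F →ₗ[K] K))

/-- underlying linear form -/
def Dl.ev (φ : Dl K F) : F →ₗ[K] K := φ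

/-- constructor -/
def Dl.mk (φ : F →ₗ[K] K) : Dl K F := φ

theorem Dl.ext {φ ψ : Dl K F} (h : ∀ x, φ.ev x = ψ.ev x) : φ = ψ := LinearMap.ext h

theorem Dl.ev_mk (φ : F →ₗ[K] K) : (Dl.mk φ).ev = φ := rfl

theorem Dl.ev_add (φ ψ : Dl K F) (x : F) : (φ + ψ).ev x = φ.ev x + ψ.ev x := rfl

theorem Dl.ev_zero (x : F) : (0 : Dl K F).ev x = 0 := rfl

theorem Dl.ev_smulK (c : K) (φ : Dl K F) (x : F) : (c • φ).ev x = c * φ.ev x := rfl

noncomputable instance : SMul F (Dl K F) where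
  smul a φ := Dl.mk (φ.ev ∘ₗ LinearMap.mulLeft K a)

theorem Dl.ev_smul (a : F) (φ : Dl K F) (x : F) : (a • φ).ev x = φ.ev (a * x) := rfl

noncomputable instance : Module F (Dl K F) where
  one_smul φ := Dl.ext fun x => by rw [Dl.ev_smul, one_mul]
  mul_smul a b φ := Dl.ext fun x => by
    rw [Dl.ev_smul, Dl.ev_smul, Dl.ev_smul]
    congr 1
    ring
  smul_zero a := rfl
  smul_add a φ ψ := rfl
  add_smul a b φ := Dl.ext fun x => by
    rw [Dl.ev_smul, Dl.ev_add, Dl.ev_smul, Dl.ev_smul, add_mul, map_add]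
  zero_smul φ := Dl.ext fun x => by
    rw [Dl.ev_smul, zero_mul, map_zero, Dl.ev_zero]

instance : IsScalarTower K F (Dl K F) where
  smul_assoc c a φ := Dl.ext fun x => by
    rw [Dl.ev_smul, Dl.ev_smulK, Dl.ev_smul, smul_mul_assoc, map_smul, smul_eq_mul]

/-- `g ↦ (f ↦ Res (f dg))` -/
noncomputable def resDer (hA : ∀ f, EE A (m f)) (hπ : Proj A π) : Derivation K F (Dl K F) :=
  Derivation.mk' (R := K) (A := F) (M := Dl K F)
    { toFun := fun g => Dl.mk
        { toFun := fun f => rp π m f g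
          map_add' := fun f f' => rp_add_left hA hπ f f' g
          map_smul' := fun c f => rp_smul_left hA hπ c f g }
      map_add' := fun g g' => Dl.ext fun f => rp_add_right hA hπ f g g'
      map_smul' := fun c g => Dl.ext fun f => rp_smul_right hA hπ c f g }
    (fun g h => Dl.ext fun f => by
      change rp π m f (g * h) = rp π m (g * f) h + rp π m (h * f) g
      rw [rp_mul hA hπ, mul_comm g f, mul_comm h f])

theorem resDer_ev (hA : ∀ f, EE A (m f)) (hπ : Proj A π) (f g : F) :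
    (resDer hA hπ g).ev f = rp π m f g := rfl

/-- evaluation at `1` -/
noncomputable def Dl.evOne : Dl K F →ₗ[K] K where
  toFun φ := φ.ev 1
  map_add' _ _ := rfl
  map_smul' _ _ := rfl

/-- Tate's residue of a differential -/
noncomputable def Res (hA : ∀ f, EE A (m f)) : Ω[F⁄K] →ₗ[K] K :=
  Dl.evOne ∘ₗ ((resDer hA (exists_proj A).choose_spec).liftKaehlerDifferential.restrictScalars K)

theorem Res_smul_D_aux (hA : ∀ f, EE A (m f)) (f g : F) :
    Res hA (f • D K F g) = rp (exists_proj A).choose m f g := by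
  have h1 : (resDer hA (exists_proj A).choose_spec).liftKaehlerDifferential (f • D K F g) =
      f • resDer hA (exists_proj A).choose_spec g := by
    rw [map_smul, Derivation.liftKaehlerDifferential_comp_D]
  change ((resDer hA (exists_proj A).choose_spec).liftKaehlerDifferential (f • D K F g)).ev 1 = _
  rw [h1, Dl.ev_smul, mul_one, resDer_ev]

/-- Independence of choices -/
theorem Res_eq (hA : ∀ f, EE A (m f)) {f g : F} {f₁ g₁ : V →ₗ[K] V} (h1 : E1 A f₁)
    (h2 : E2 A (m f - f₁)) (h3 : E2 A (m g - g₁)) :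
    Res hA (f • D K F g) = ftr (comm f₁ g₁) := by
  rw [Res_smul_D_aux, rp]
  have hπ := (exists_proj A).choose_spec
  refine ((ftr_indep (hπ.E1 (m f)) h1 ?_ (hA g) h3 (pair_E2 hA hπ f g)).2).symm
  have := h2.sub (hπ.sub_E2 (hA f))
  convert this using 1
  abel

theorem Res_eq' (hA : ∀ f, EE A (m f)) {f g : F} {f₁ : V →ₗ[K] V} (h1 : E1 A f₁)
    (h2 : E2 A (m f - f₁)) :
    Res hA (f • D K F g) = ftr (comm f₁ (m g)) := by
  refine Res_eq hA h1 h2 ?_
  rw [sub_self]
  change FiniteDimensional K (A.map 0)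
  rw [Submodule.map_zero]
  infer_instance

theorem Res_smul_D (hA : ∀ f, EE A (m f)) (hπ : Proj A π) (f g : F) :
    Res hA (f • D K F g) = ftr (comm (π ∘ₗ m f) (m g)) :=
  Res_eq' hA (hπ.E1 _) (hπ.sub_E2 (hA f))

end Pairing

end Fermat.Agent.Residue
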